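import Fermat.Agent.Galois.Places
import Mathlib.RingTheory.Polynomial.Cyclotomic.Eval
import Mathlib.RingTheory.Polynomial.Cyclotomic.Roots
import Mathlib.RingTheory.Norm.Transitivity
import Mathlib.RingTheory.Valuation.LocalSubring
import Mathlib.Algebra.Category.Grp.Injective
import Mathlib.GroupTheory.Divisible
import Mathlib.LinearAlgebra.LinearIndependent.Basic
import Mathlib.Algebra.MonoidAlgebra.Basic
import Mathlib.RingTheory.RootsOfUnity.Complex

/-!
A unit of infinite order has values `Φ_Q (x ^ j)` which are not all units.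
-/

set_option autoImplicit false

open Polynomial

noncomputable section

namespace FLTA.DeligneSerre

theorem exists_monoidHom_apply_eq (x ζ : ℂˣ) (hx : ¬ IsOfFinOrder x) :
    ∃ ψ : ℂˣ →* ℂˣ, ψ x = ζ := by
  letI : DivisibleBy (Additive ℂˣ) ℤ := divisibleByOfSMulRightSurj _ _ fun {n} hn a => by
    obtain ⟨b, hb⟩ := IsAlgClosed.exists_pow_nat_eq ((Additive.toMul a : ℂˣ) : ℂ)
      (Int.natAbs_pos.mpr hn)
    have hb0 : b ≠ 0 := by
      intro h
      rw [h, zero_pow (Int.natAbs_pos.mpr hn).ne'] at hb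
      exact Units.ne_zero _ hb.symm
    have hu : (Units.mk0 b hb0) ^ n.natAbs = Additive.toMul a := Units.ext (by simpa using hb)
    rcases Int.natAbs_eq n with h | h
    · refine ⟨Additive.ofMul (Units.mk0 b hb0), ?_⟩
      show n • Additive.ofMul (Units.mk0 b hb0) = a
      rw [h, natCast_zsmul, ← ofMul_pow, hu]; rfl
    · refine ⟨Additive.ofMul (Units.mk0 b hb0)⁻¹, ?_⟩
      show n • Additive.ofMul (Units.mk0 b hb0)⁻¹ = a
      rw [h, neg_smul, natCast_zsmul, ofMul_inv, neg_nsmul, neg_neg, ← ofMul_pow, hu]; rfl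
  have hinj : Function.Injective (MonoidHom.toAdditive (zpowersHom ℂˣ x)) :=
    injective_zpow_iff_not_isOfFinOrder.mpr hx
  obtain ⟨h, hh⟩ := (Module.Baer.of_divisible (Additive ℂˣ)).extension_property_addMonoidHom
    (MonoidHom.toAdditive (zpowersHom ℂˣ x)) hinj (MonoidHom.toAdditive (zpowersHom ℂˣ ζ))
  refine ⟨MonoidHom.toAdditive.symm h, ?_⟩
  have := DFunLike.congr_fun hh (Additive.ofMul (Multiplicative.ofAdd (1 : ℤ)))
  simpa using congrArg Additive.toMul this

/-- The exponential polynomial lemma. -/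
theorem exists_pow_cyclotomic_ne {ι : Type*} [Fintype ι] (z : ι → ℂˣ) (i₀ : ι)
    (hz : ¬ IsOfFinOrder (z i₀)) (Q : ℕ) (hQ : 0 < Q) :
    ∃ j : ℕ, (∏ i, (cyclotomic Q ℂ).eval ((z i : ℂ) ^ j)) ^ 2 ≠ 1 := by
  by_contra hall
  push Not at hall
  set P : MonoidAlgebra ℂ ℂˣ :=
    (∏ i, aeval (MonoidAlgebra.of ℂ ℂˣ (z i)) (cyclotomic Q ℂ)) ^ 2 with hP
  have hev : ∀ φ : ℂˣ →* ℂ, MonoidAlgebra.lift ℂ ℂ ℂˣ φ P =
      (∏ i, (cyclotomic Q ℂ).eval (φ (z i))) ^ 2 := by
    intro φ
    rw [hP, map_pow, map_prod]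
    congr 1
    refine Finset.prod_congr rfl fun i _ => ?_
    rw [← Polynomial.aeval_algHom_apply, MonoidAlgebra.lift_of, Polynomial.coe_aeval_eq_eval]
  have hP1 : P = 1 := by
    have hli := (linearIndependent_monoidHom (Multiplicative ℕ) ℂ).comp
      (fun w : ℂˣ => powersHom ℂ (w : ℂ)) (fun a b h => Units.ext (by
        simpa using DFunLike.congr_fun h (Multiplicative.ofAdd 1)))
    have hc : Finsupp.linearCombination ℂ (fun w : ℂˣ =>
        ((powersHom ℂ (w : ℂ) : Multiplicative ℕ →* ℂ) : Multiplicative ℕ → ℂ)) (P - 1).coeff = 0 := by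
      funext j
      rw [Finsupp.linearCombination_apply, Finsupp.sum, Finset.sum_apply]
      have h1 : MonoidAlgebra.lift ℂ ℂ ℂˣ
          (((powMonoidHom j.toAdd : ℂ →* ℂ)).comp (Units.coeHom ℂ)) (P - 1) = 0 := by
        rw [map_sub, map_one, hev]
        simpa using sub_eq_zero.mpr (hall j.toAdd)
      rw [MonoidAlgebra.lift_apply, Finsupp.sum] at h1
      simpa [powersHom_apply] using h1
    exact sub_eq_zero.mp (MonoidAlgebra.coeff_injective (hli hc))
  obtain ⟨ζ, hζ⟩ : ∃ ζ : ℂˣ, IsRoot (cyclotomic Q ℂ) (ζ : ℂ) := by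
    have h := Complex.isPrimitiveRoot_exp Q hQ.ne'
    exact ⟨Units.mk0 _ (h.ne_zero hQ.ne'), h.isRoot_cyclotomic hQ⟩
  obtain ⟨ψ, hψ⟩ := exists_monoidHom_apply_eq (z i₀) ζ hz
  have h0 := hev ((Units.coeHom ℂ).comp ψ)
  rw [hP1, map_one, Finset.prod_eq_zero (Finset.mem_univ i₀)
    (by simp only [MonoidHom.comp_apply, hψ, Units.coeHom_apply]; exact hζ), zero_pow two_ne_zero] at h0
  exact one_ne_zero h0

local notation "Qb" => AlgebraicClosure ℚ

theorem exists_place_nonunit (y : Qb) (hyi : ¬ IsIntegral ℤ y⁻¹) :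
    ∃ l : ℕ, l.Prime ∧ ∃ A : ValuationSubring Qb, A.LiesOverPrime l ∧ y ∈ A.nonunits := by
  by_contra hcon
  push Not at hcon
  refine hyi ?_
  have hmem : y⁻¹ ∈ (⨅ V : {V : ValuationSubring Qb // (∅ : Set Qb) ⊆ V.toSubring},
      V.1.toSubring) := by
    rw [Subring.mem_iInf]
    rintro ⟨V, -⟩
    by_cases hV : V = ⊤
    · subst hV; trivial
    obtain ⟨l, hl, hVl⟩ := Galois.exists_prime_liesOverPrime hV
    exact Galois.inv_mem_of_not_mem_nonunits (hcon l hl V hVl)
  rw [iInf_valuationSubring_superset] at hmem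
  have hint : IsIntegral (Subring.closure (∅ : Set Qb)) y⁻¹ := hmem
  obtain ⟨p, hp, hpy⟩ := hint
  have hbot : Subring.closure (∅ : Set Qb) ≤ (Int.castRingHom Qb).range :=
    Subring.closure_le.mpr (Set.empty_subset _)
  choose c hc using fun r : Subring.closure (∅ : Set Qb) => hbot r.2
  refine ⟨p.map ?_, hp.map _, ?_⟩
  · exact
      { toFun := c
        map_one' := Int.cast_injective (α := Qb) (by
          simpa using hc 1)
        map_mul' := fun a b => Int.cast_injective (α := Qb) (by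
          have := hc (a * b); simp only [eq_intCast, Int.cast_mul] at *
          rw [this, hc a, hc b]; rfl)
        map_zero' := Int.cast_injective (α := Qb) (by simpa using hc 0)
        map_add' := fun a b => Int.cast_injective (α := Qb) (by
          have := hc (a + b); simp only [eq_intCast, Int.cast_add] at *
          rw [this, hc a, hc b]; rfl) }
  · rw [Polynomial.eval₂_map]
    convert hpy using 2
    ext r
    exact hc r

/-- A nonzero algebraic number of infinite order: for each multiple-exponent `r` some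
`Φ_Q (x ^ (r j))` fails to be a unit, hence is a nonunit at some place. -/
theorem exists_place_cyclotomic (x : Qb) (hx : IsIntegral ℤ x) (hxu : ∀ n : ℕ, 0 < n → x ^ n ≠ 1)
    (hx0 : x ≠ 0) (r : ℕ) (hr : 0 < r) (Q : ℕ) (hQ : 0 < Q) :
    ∃ (j : ℕ) (l : ℕ), l.Prime ∧ ∃ A : ValuationSubring Qb, A.LiesOverPrime l ∧
      (cyclotomic Q Qb).eval (x ^ (r * j)) ∈ A.nonunits := by
  set F := IntermediateField.adjoin ℚ ({x} : Set Qb)
  haveI : FiniteDimensional ℚ F := IntermediateField.adjoin.finiteDimensional hx.tower_top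
  set x' : F := ⟨x, IntermediateField.mem_adjoin_simple_self ℚ x⟩
  have hx'0 : x' ≠ 0 := fun h => hx0 (congrArg Subtype.val h)
  haveI : Nonempty (F →ₐ[ℚ] ℂ) := ⟨IsAlgClosed.lift⟩
  let σ₀ : F →ₐ[ℚ] ℂ := Classical.arbitrary _
  have hne : ∀ σ : F →ₐ[ℚ] ℂ, σ x' ^ r ≠ 0 := fun σ =>
    pow_ne_zero _ ((map_ne_zero σ).mpr hx'0)
  have hfin : ¬ IsOfFinOrder (Units.mk0 _ (hne σ₀)) := by
    rw [isOfFinOrder_iff_pow_eq_one]
    rintro ⟨n, hn, h⟩
    have h' : σ₀ (x' ^ (r * n)) = σ₀ 1 := by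
      have := congrArg Units.val h
      simpa [pow_mul] using this
    exact hxu (r * n) (Nat.mul_pos hr hn) (congrArg Subtype.val (σ₀.injective h'))
  obtain ⟨j, hj⟩ := exists_pow_cyclotomic_ne (fun σ : F →ₐ[ℚ] ℂ => Units.mk0 _ (hne σ)) σ₀ hfin Q hQ
  set w : F := (cyclotomic Q F).eval (x' ^ (r * j))
  have hw : (algebraMap ℚ ℂ (Algebra.norm ℚ w)) ^ 2 ≠ 1 := by
    rw [Algebra.norm_eq_prod_embeddings ℚ ℂ]
    refine fun h => hj (Eq.trans ?_ h)
    congr 1
    refine Finset.prod_congr rfl fun σ _ => ?_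
    rw [Units.val_mk0, ← pow_mul, ← map_pow]
    show eval (σ (x' ^ (r * j))) (cyclotomic Q ℂ) = σ ((cyclotomic Q F).eval (x' ^ (r * j)))
    rw [← map_cyclotomic Q σ.toRingHom, Polynomial.eval_map]
    exact Polynomial.eval₂_at_apply σ.toRingHom _
  have hcoe : (w : Qb) = (cyclotomic Q Qb).eval (x ^ (r * j)) := by
    show algebraMap F Qb w = _
    rw [← map_cyclotomic Q (algebraMap F Qb), Polynomial.eval_map]
    exact (Polynomial.eval₂_at_apply (algebraMap F Qb) _).symm
  have hwint : IsIntegral ℤ (w : Qb) := by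
    rw [hcoe, ← map_cyclotomic_int, Polynomial.eval_map, Polynomial.eval₂_eq_sum_range]
    exact IsIntegral.sum _ fun i _ => isIntegral_algebraMap.mul ((hx.pow _).pow i)
  have hwF : IsIntegral ℤ w :=
    (isIntegral_algHom_iff (F.val.toRingHom.toIntAlgHom) Subtype.val_injective).mp hwint
  by_cases hw0 : (w : Qb) = 0
  · obtain ⟨A, hA⟩ := Galois.exists_liesOverPrime (q := 2) Nat.prime_two
    refine ⟨j, 2, Nat.prime_two, A, hA, ?_⟩
    rw [← hcoe, hw0]
    rw [ValuationSubring.mem_nonunits_iff]; simp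
  have hnu : ¬ IsIntegral ℤ (w : Qb)⁻¹ := by
    intro hinv
    have hinvF : IsIntegral ℤ w⁻¹ :=
      (isIntegral_algHom_iff (F.val.toRingHom.toIntAlgHom) Subtype.val_injective).mp (by
        have e : (F.val.toRingHom.toIntAlgHom) w⁻¹ = (w : Qb)⁻¹ := map_inv₀ F.val w
        rw [e]; exact hinv)
    obtain ⟨a, ha⟩ := IsIntegrallyClosed.isIntegral_iff.mp (Algebra.isIntegral_norm ℚ hwF)
    obtain ⟨b, hb⟩ := IsIntegrallyClosed.isIntegral_iff.mp (Algebra.isIntegral_norm ℚ hinvF)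
    have hwF0 : w ≠ 0 := fun h => hw0 (by rw [h]; rfl)
    have hab : (algebraMap ℤ ℚ) (a * b) = 1 := by
      rw [map_mul, ha, hb, ← map_mul, mul_inv_cancel₀ hwF0, map_one]
    have hab' : a * b = 1 := (algebraMap ℤ ℚ).injective_int (by rw [hab, map_one])
    apply hw
    rw [← ha]
    rcases Int.eq_one_or_neg_one_of_mul_eq_one hab' with h | h <;> simp [h]
  obtain ⟨l, hl, A, hA, hmem⟩ := exists_place_nonunit _ hnu
  exact ⟨j, l, hl, A, hA, hcoe ▸ hmem⟩

end FLTA.DeligneSerre
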