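import Fermat.Agent.DeligneSerre.CyclotomicEscape
import Mathlib.FieldTheory.Finite.Basic

/-!
For an algebraic integer of infinite multiplicative order there is a place, outside any finite
set of residue characteristics, where the order of its reduction is divisible by a given `Q`.
-/

set_option autoImplicit false

open Polynomial IsLocalRing

noncomputable section

namespace FLTA.DeligneSerre

local notation "Qb" => AlgebraicClosure ℚ

theorem pow_factorial_sub_one {κ : Type*} [Field κ] (l : ℕ) [Fact l.Prime] [CharP κ l] (d : ℕ)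
    (p : ℤ[X]) (hp : p.Monic) (hd : p.natDegree ≤ d) (y : κ) (hy : y ≠ 0)
    (hpy : (p.map (Int.castRingHom κ)).eval y = 0) : y ^ (l ^ d.factorial - 1) = 1 := by
  letI : Algebra (ZMod l) κ := ZMod.algebra κ l
  set q := p.map (Int.castRingHom (ZMod l)) with hq
  have hqm : q.Monic := hp.map _
  have hqy : Polynomial.aeval y q = 0 := by
    rw [aeval_def, hq, Polynomial.eval₂_map,
      RingHom.ext_int ((algebraMap (ZMod l) κ).comp _) (Int.castRingHom κ), ← Polynomial.eval_map]
    exact hpy
  have hi : IsIntegral (ZMod l) y := ⟨q, hqm, hqy⟩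
  set k := IntermediateField.adjoin (ZMod l) ({y} : Set κ)
  haveI : FiniteDimensional (ZMod l) k := IntermediateField.adjoin.finiteDimensional hi
  haveI : Finite k := Module.finite_of_finite (ZMod l)
  letI := Fintype.ofFinite k
  set m := Module.finrank (ZMod l) k with hm
  have hmd : m ≤ d := by
    rw [hm, IntermediateField.adjoin.finrank hi]
    exact (natDegree_le_of_dvd (minpoly.dvd _ _ hqy) hqm.ne_zero).trans
      ((Polynomial.natDegree_map_le).trans hd)
  have hcard : Fintype.card k = l ^ m := by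
    rw [Module.card_eq_pow_finrank (K := ZMod l) (V := k), ZMod.card]
  set y' : k := ⟨y, IntermediateField.mem_adjoin_simple_self _ y⟩
  have h1 : y' ^ (Fintype.card k - 1) = 1 :=
    FiniteField.pow_card_sub_one_eq_one _ fun h => hy (congrArg Subtype.val h)
  have h2 : y ^ (l ^ m - 1) = 1 := by
    rw [← hcard]; exact congrArg Subtype.val h1
  obtain ⟨c, hc⟩ := Nat.pow_sub_one_dvd_pow_sub_one l
    (Nat.dvd_factorial (hm ▸ Module.finrank_pos) hmd)
  rw [hc, pow_mul, h2, one_pow]

/-- For `x` an integral unit of infinite order, `Q` not a prime power and a finite set `E` of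
primes: a place of residue characteristic outside `E` at which the reduction of `x` has order
divisible by `Q`. -/
theorem exists_place_dvd_orderOf (x : Qb) (hx : IsIntegral ℤ x) (hx' : IsIntegral ℤ x⁻¹)
    (hx0 : x ≠ 0) (hxu : ∀ n : ℕ, 0 < n → x ^ n ≠ 1) (E : Finset ℕ)
    (Q : ℕ) (hQ : ∀ {p : ℕ}, p.Prime → ∀ k : ℕ, p ^ k ≠ Q) (hQ0 : 0 < Q) :
    ∃ l : ℕ, l.Prime ∧ l ∉ E ∧ ∃ A : ValuationSubring Qb, ∃ _ : A.LiesOverPrime l,
      Q ∣ orderOf (residue A ⟨x, Galois.mem_of_isIntegral hx⟩) := by
  classical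
  set d := (minpoly ℤ x).natDegree
  set E' := ((E ∪ Q.primeFactors).filter Nat.Prime)
  set r := ∏ l ∈ E', (l ^ d.factorial - 1) with hr
  have hr0 : 0 < r := Finset.prod_pos fun l hl => Nat.sub_pos_of_lt
    (Nat.one_lt_pow (Nat.factorial_pos d).ne' (Finset.mem_filter.mp hl).2.one_lt)
  obtain ⟨j, l, hl, A, hA, hmem⟩ := exists_place_cyclotomic x hx hxu hx0 r hr0 Q hQ0
  haveI := Fact.mk hl
  haveI : CharP (ResidueField A) l := Galois.charP_residueField hl hA
  set y := residue A ⟨x, Galois.mem_of_isIntegral hx⟩ with hy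
  have hy0 : y ≠ 0 := by
    intro h
    have h2 : x * x⁻¹ ∈ A.nonunits := Galois.mul_mem_nonunits_of_mem
      ((Galois.residue_eq_zero_iff_mem_nonunits _).mp h) (Galois.mem_of_isIntegral hx')
    rw [mul_inv_cancel₀ hx0] at h2
    exact Galois.one_not_mem_nonunits h2
  have hev : (cyclotomic Q (ResidueField A)).eval (y ^ (r * j)) = 0 := by
    have hmemA : (cyclotomic Q Qb).eval (x ^ (r * j)) ∈ A :=
      ((ValuationSubring.mem_nonunits_iff_exists_mem_maximalIdeal).mp hmem).1
    have : residue A ((cyclotomic Q A).eval (⟨x, Galois.mem_of_isIntegral hx⟩ ^ (r * j))) = 0 := by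
      rw [Galois.residue_eq_zero_iff_mem_nonunits]
      convert hmem
      rw [← map_cyclotomic Q A.subtype, Polynomial.eval_map]
      exact (Polynomial.eval₂_at_apply A.subtype _).symm
    rw [hy, ← map_cyclotomic Q (residue A), Polynomial.eval_map, ← map_pow,
      Polynomial.eval₂_at_apply]
    exact this
  have hlE : l ∉ E' := by
    intro hl'
    have hpow : y ^ (l ^ d.factorial - 1) = 1 := by
      refine pow_factorial_sub_one l d (minpoly ℤ x) (minpoly.monic hx) le_rfl y hy0 ?_
      have h0 : Polynomial.eval₂ (Int.castRingHom A) ⟨x, Galois.mem_of_isIntegral hx⟩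
          (minpoly ℤ x) = 0 := by
        apply Subtype.val_injective
        have := Polynomial.hom_eval₂ (minpoly ℤ x) (Int.castRingHom A) A.subtype
          ⟨x, Galois.mem_of_isIntegral hx⟩
        refine this.trans ?_
        rw [RingHom.ext_int (A.subtype.comp _) (algebraMap ℤ Qb)]
        exact minpoly.aeval ℤ x
      have := Polynomial.hom_eval₂ (minpoly ℤ x) (Int.castRingHom A) (residue A)
          ⟨x, Galois.mem_of_isIntegral hx⟩
      rw [h0, map_zero, RingHom.ext_int ((residue A).comp _) (Int.castRingHom _)] at this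
      rw [Polynomial.eval_map]; exact this.symm
    have h1 : y ^ (r * j) = 1 := by
      obtain ⟨c, hc⟩ := Finset.dvd_prod_of_mem (fun l => l ^ d.factorial - 1) hl'
      rw [pow_mul, hr, hc, pow_mul y, hpow, one_pow, one_pow]
    rw [h1, eval_one_cyclotomic_not_prime_pow hQ] at hev
    exact one_ne_zero hev
  refine ⟨l, hl, fun h => hlE (Finset.mem_filter.mpr ⟨Finset.mem_union_left _ h, hl⟩), A, hA, ?_⟩
  have hlQ : ¬ l ∣ Q := fun h => hlE (Finset.mem_filter.mpr
    ⟨Finset.mem_union_right _ (Nat.mem_primeFactors.mpr ⟨hl, h, hQ0.ne'⟩), hl⟩)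
  haveI : NeZero (Q : ResidueField A) :=
    ⟨fun h => hlQ ((CharP.cast_eq_zero_iff (ResidueField A) l Q).mp h)⟩
  have hprim : IsPrimitiveRoot (y ^ (r * j)) Q := isRoot_cyclotomic_iff.mp hev
  rw [hprim.eq_orderOf]
  exact orderOf_pow_dvd _

end FLTA.DeligneSerre
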